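import Fermat.Agent.AxFiniteFields.Points
import Mathlib.FieldTheory.Finite.Extension
import Mathlib.FieldTheory.Finite.GaloisField
import Mathlib.FieldTheory.PrimitiveElement
import Mathlib.FieldTheory.Perfect
import Mathlib.Algebra.Polynomial.Lifts

/-!
# Ax's theorem on ultraproducts of finite fields

An ultraproduct of finite fields whose sizes tend to infinity is perfect, pseudo algebraically
closed and has exactly one extension of each degree.
-/

set_option autoImplicit false
set_option linter.style.haveILetI false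

noncomputable section

namespace FA.AxFiniteFields

open Fermat.Agent.AxKochen Polynomial Polynomial.Bivariate FA.CurveRH

theorem eval_map_comp {σ R S : Type*} [CommRing R] [CommRing S] (φ : R →+* S) (x : σ → R)
    (u : MvPolynomial σ R) :
    MvPolynomial.eval (fun j => φ (x j)) (u.map φ) = φ (MvPolynomial.eval x u) := by
  rw [MvPolynomial.eval_map, show MvPolynomial.eval x u =
    MvPolynomial.eval₂ (RingHom.id R) x u from rfl, MvPolynomial.eval₂_comp_left, RingHom.comp_id]
  rfl

variable {I : Type} {U : Ultrafilter I} {F : I → Type} [∀ i, Field (F i)]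

theorem poly_map_umk_eq_zero_iff {u : (Π i, F i)[X]} :
    u.map (umk U F) = 0 ↔ ∀ᶠ i in (U : Filter I), u.map (Pi.evalRingHom F i) = 0 := by
  simp only [Polynomial.ext_iff, coeff_map, coeff_zero, umk_eq_zero, Pi.evalRingHom_apply]
  refine ⟨fun h => ?_, fun h s => h.mono fun i hi => hi s⟩
  filter_upwards [(Filter.eventually_all_finset u.support).2 fun s _ => h s] with i hi s
  by_cases hs : s ∈ u.support
  · exact hi s hs
  · rw [notMem_support_iff.1 hs]; rfl

theorem poly_map_umk_eq_iff {u v : (Π i, F i)[X]} :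
    u.map (umk U F) = v.map (umk U F) ↔
      ∀ᶠ i in (U : Filter I), u.map (Pi.evalRingHom F i) = v.map (Pi.evalRingHom F i) := by
  rw [← sub_eq_zero, ← Polynomial.map_sub, poly_map_umk_eq_zero_iff]
  simp only [Polynomial.map_sub, sub_eq_zero]

theorem exists_monic_lift {u : (UltraField U F)[X]} (hu : u.Monic) :
    ∃ u' : (Π i, F i)[X], u'.map (umk U F) = u ∧ u'.natDegree = u.natDegree ∧ u'.Monic :=
  lifts_and_natDegree_eq_and_monic (f := umk U F)
    ((lifts_iff_coeff_lifts _).2 fun n => umk_surjective (u.coeff n)) hu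

/-- The monic polynomial with given lower coefficients. -/
def glueMonic {R : Type*} [CommRing R] (n : ℕ) (c : ℕ → R) : R[X] :=
  X ^ n + ∑ j ∈ Finset.range n, C (c j) * X ^ j

theorem monic_glueMonic {R : Type*} [CommRing R] [Nontrivial R] (n : ℕ) (c : ℕ → R) :
    (glueMonic n c).Monic ∧ (glueMonic n c).natDegree = n := by
  have h : (∑ j ∈ Finset.range n, C (c j) * X ^ j).degree < (n : WithBot ℕ) :=
    lt_of_le_of_lt (degree_sum_le _ _) ((Finset.sup_lt_iff (WithBot.bot_lt_coe n)).2 fun j hj =>
      (degree_C_mul_X_pow_le j _).trans_lt (Nat.cast_lt.2 (Finset.mem_range.1 hj)))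
  refine ⟨monic_X_pow_add h, natDegree_eq_of_degree_eq_some ?_⟩
  rw [glueMonic, degree_add_eq_left_of_degree_lt (by rwa [degree_X_pow]), degree_X_pow]

theorem map_glueMonic {R S : Type*} [CommRing R] [CommRing S] (φ : R →+* S) (n : ℕ) (c : ℕ → R) :
    (glueMonic n c).map φ = glueMonic n fun j => φ (c j) := by
  simp [glueMonic, Polynomial.map_sum]

theorem eq_glueMonic {R : Type*} [CommRing R] {u : R[X]} (hu : u.Monic) :
    u = glueMonic u.natDegree u.coeff :=
  hu.as_sum

/-- Monic polynomials over the factors glue. -/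
theorem exists_monic_glue (n : ℕ) (u : Π i, (F i)[X]) (v : ∀ i, (u i).Monic → (u i).natDegree = n) :
    ∃ u' : (Π i, F i)[X], (u'.map (umk U F)).Monic ∧ (u'.map (umk U F)).natDegree = n ∧
      ∀ i, (u i).Monic → u'.map (Pi.evalRingHom F i) = u i := by
  refine ⟨glueMonic n fun j i => (u i).coeff j, ?_, ?_, fun i hi => ?_⟩
  · rw [map_glueMonic]; exact (monic_glueMonic n _).1
  · rw [map_glueMonic]; exact (monic_glueMonic n _).2
  · rw [map_glueMonic]
    conv_rhs => rw [eq_glueMonic hi, v i hi]
    rfl

/-- Irreducibility of monic polynomials passes from the factors to the ultraproduct. -/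
theorem irreducible_of_eventually {u : (Π i, F i)[X]} (hu : (u.map (umk U F)).Monic)
    (hn : 0 < (u.map (umk U F)).natDegree)
    (h : ∀ᶠ i in (U : Filter I), Irreducible (u.map (Pi.evalRingHom F i))) :
    Irreducible (u.map (umk U F)) := by
  refine (hu.irreducible_iff_natDegree).2
    ⟨fun e => by rw [e, natDegree_one] at hn; omega, fun a b ha hb hab => ?_⟩
  obtain ⟨a', rfl, ha'd, ha'm⟩ := exists_monic_lift ha
  obtain ⟨b', rfl, hb'd, hb'm⟩ := exists_monic_lift hb
  rw [← Polynomial.map_mul, poly_map_umk_eq_iff] at hab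
  obtain ⟨i, hirr, he⟩ := (h.and hab).exists
  rw [← he, Polynomial.map_mul] at hirr
  have hnt : Nontrivial (Π i, F i) := ⟨0, 1, fun e => zero_ne_one (congrFun e i)⟩
  rcases hirr.isUnit_or_isUnit rfl with hw | hw
  · exact Or.inl (by rw [← ha'd, ← ha'm.natDegree_map (Pi.evalRingHom F i)]; exact
      natDegree_eq_zero_of_isUnit hw)
  · exact Or.inr (by rw [← hb'd, ← hb'm.natDegree_map (Pi.evalRingHom F i)]; exact
      natDegree_eq_zero_of_isUnit hw)

/-- Irreducibility of monic polynomials passes from the ultraproduct to the factors. -/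
theorem eventually_irreducible {u : (Π i, F i)[X]} (hu : u.Monic)
    (h : Irreducible (u.map (umk U F))) :
    ∀ᶠ i in (U : Filter I), Irreducible (u.map (Pi.evalRingHom F i)) := by
  classical
  by_contra hev
  rw [← Ultrafilter.eventually_not] at hev
  obtain ⟨i₀, -⟩ := hev.exists
  have hnt : Nontrivial (Π i, F i) := ⟨0, 1, fun e => zero_ne_one (congrFun e i₀)⟩
  obtain ⟨n, hn⟩ : ∃ n, n = (u.map (umk U F)).natDegree := ⟨_, rfl⟩
  have hdeg : ∀ i, (u.map (Pi.evalRingHom F i)).natDegree = n := fun i => by
    rw [hn, hu.natDegree_map, hu.natDegree_map]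
  have hn0 : 0 < n := hn ▸ h.natDegree_pos
  have hsplit : ∀ᶠ i in (U : Filter I), ∃ a ∈ ((Finset.Ioo 0 n : Finset ℕ) : Set ℕ),
      ∃ g k : (F i)[X], g.Monic ∧ k.Monic ∧ g.natDegree = a ∧ k.natDegree = n - a ∧
        g * k = u.map (Pi.evalRingHom F i) := by
    filter_upwards [hev] with i hi
    rw [(hu.map _).irreducible_iff_natDegree] at hi
    push Not at hi
    obtain ⟨g, k, hg, hk, hgk, hg0, hk0⟩ := hi fun e => by
      have := hdeg i
      rw [e, natDegree_one] at this
      omega
    have hd := hdeg i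
    rw [← hgk, hg.natDegree_mul hk] at hd
    exact ⟨g.natDegree, Finset.mem_coe.2 (Finset.mem_Ioo.2 ⟨by omega, by omega⟩), g, k, hg, hk,
      rfl, by omega, hgk⟩
  obtain ⟨a, ha, hev'⟩ :=
    (Ultrafilter.eventually_exists_mem_iff (Finset.finite_toSet _)).1 hsplit
  rw [Finset.mem_coe, Finset.mem_Ioo] at ha
  choose! g k hg hk hga hkd hgk using fun i (hi : ∃ g k : (F i)[X], g.Monic ∧ k.Monic ∧
    g.natDegree = a ∧ k.natDegree = n - a ∧ g * k = u.map (Pi.evalRingHom F i)) => hi
  obtain ⟨G, hGm, hGd, hG⟩ := exists_monic_glue (U := U) a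
    (fun i => if (g i).natDegree = a then g i else 0)
    fun i hi => by
      by_cases e : (g i).natDegree = a
      · rw [if_pos e, e]
      · rw [if_neg e] at hi; exact absurd hi not_monic_zero
  obtain ⟨H, hHm, hHd, hH⟩ := exists_monic_glue (U := U) (n - a)
    (fun i => if (k i).natDegree = n - a then k i else 0)
    fun i hi => by
      by_cases e : (k i).natDegree = n - a
      · rw [if_pos e, e]
      · rw [if_neg e] at hi; exact absurd hi not_monic_zero
  have hmul : G.map (umk U F) * H.map (umk U F) = u.map (umk U F) := by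
    rw [← Polynomial.map_mul, poly_map_umk_eq_iff]
    filter_upwards [hev'] with i hi
    rw [Polynomial.map_mul, hG i (by rw [if_pos (hga i hi)]; exact hg i hi), if_pos (hga i hi),
      hH i (by rw [if_pos (hkd i hi)]; exact hk i hi), if_pos (hkd i hi), hgk i hi]
  rcases h.isUnit_or_isUnit hmul.symm with hw | hw <;>
    have := natDegree_eq_zero_of_isUnit hw <;> omega

variable [∀ i, Finite (F i)]

theorem exists_irreducible_natDegree (k : Type) [Field k] [Finite k] {n : ℕ} (hn : 0 < n) :
    ∃ u : k[X], u.Monic ∧ u.natDegree = n ∧ Irreducible u := by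
  obtain ⟨p, hp⟩ := CharP.exists k
  haveI := hp
  haveI : Fact p.Prime := ⟨CharP.char_is_prime k p⟩
  haveI : NeZero n := ⟨hn.ne'⟩
  obtain ⟨α, hα⟩ := Field.exists_primitive_element k (FiniteField.Extension k p n)
  have hint : IsIntegral k α := Algebra.IsIntegral.isIntegral α
  refine ⟨minpoly k α, minpoly.monic hint, ?_, minpoly.irreducible hint⟩
  rw [← IntermediateField.adjoin.finrank hint, hα, IntermediateField.finrank_top',
    FiniteField.finrank_extension]

/-- **An extension of every degree.** -/
theorem exists_irreducible_ultra {n : ℕ} (hn : 0 < n) :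
    ∃ u : (UltraField U F)[X], u.Monic ∧ u.natDegree = n ∧ Irreducible u := by
  choose u hm hd hi using fun i => exists_irreducible_natDegree (F i) hn
  obtain ⟨u', hu'm, hu'd, hu'⟩ := exists_monic_glue (U := U) n u fun i _ => hd i
  refine ⟨_, hu'm, hu'd, irreducible_of_eventually hu'm (by omega)
    (Filter.Eventually.of_forall fun i => ?_)⟩
  rw [hu' i (hm i)]
  exact hi i

/-- In a finite field every irreducible splits in the field of a root of another of its degree. -/
theorem exists_split_coords (k : Type) [Field k] [Finite k] {P Q : k[X]} {n : ℕ} (_hP : P.Monic)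
    (hPi : Irreducible P) (hPd : P.natDegree = n) (hQ : Q.Monic) (hQi : Irreducible Q)
    (hQd : Q.natDegree = n) :
    ∃ c : Fin n → Fin n → k, Q.map (AdjoinRoot.of P) = ∏ a : Fin n,
      (X - C (AdjoinRoot.mk P (∑ b : Fin n, C (c a b) * X ^ (b : ℕ)))) := by
  haveI : Fact (Irreducible P) := ⟨hPi⟩
  haveI : Fact (Irreducible Q) := ⟨hQi⟩
  haveI : Module.Finite k (AdjoinRoot P) := (AdjoinRoot.powerBasis hPi.ne_zero).finite
  haveI : Finite (AdjoinRoot P) := Module.finite_of_finite k
  obtain ⟨j⟩ := FiniteField.nonempty_algHom_of_finrank_dvd (K := AdjoinRoot Q) (L := AdjoinRoot P)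
    (F := k) (by
      rw [(AdjoinRoot.powerBasis hQi.ne_zero).finrank, (AdjoinRoot.powerBasis hPi.ne_zero).finrank,
        AdjoinRoot.powerBasis_dim, AdjoinRoot.powerBasis_dim, hPd, hQd])
  have hroot : Polynomial.aeval (j (AdjoinRoot.root Q)) Q = 0 := by
    rw [Polynomial.aeval_algHom_apply, AdjoinRoot.aeval_eq, AdjoinRoot.mk_self, map_zero]
  have hsplit : (Q.map (AdjoinRoot.of P)).Splits := by
    have h := (inferInstance : Normal k (AdjoinRoot P)).splits (j (AdjoinRoot.root Q))
    rwa [← minpoly.eq_of_irreducible_of_monic hQi hroot hQ, AdjoinRoot.algebraMap_eq] at h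
  have hprod := hsplit.eq_prod_roots_of_monic (hQ.map _)
  have hlen : ((Q.map (AdjoinRoot.of P)).roots.toList).length = n := by
    rw [Multiset.length_toList, ← hsplit.natDegree_eq_card_roots, hQ.natDegree_map, hQd]
  have hrep : ∀ y : AdjoinRoot P, ∃ c : Fin n → k,
      AdjoinRoot.mk P (∑ b : Fin n, C (c b) * X ^ (b : ℕ)) = y := fun y => by
    obtain ⟨B, hB⟩ : ∃ B : Module.Basis (Fin n) k (AdjoinRoot P),
        ∀ b, B b = AdjoinRoot.root P ^ (b : ℕ) :=
      ⟨(AdjoinRoot.powerBasis hPi.ne_zero).basis.reindex (finCongr hPd), fun b => by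
        rw [Module.Basis.reindex_apply, PowerBasis.coe_basis]
        rfl⟩
    refine ⟨fun b => B.repr y b, ?_⟩
    rw [map_sum]
    conv_rhs => rw [← B.sum_repr y]
    refine Finset.sum_congr rfl fun b _ => ?_
    rw [map_mul, map_pow, AdjoinRoot.mk_C, AdjoinRoot.mk_X, Algebra.smul_def,
      AdjoinRoot.algebraMap_eq, hB]
  choose cf hcf using hrep
  refine ⟨fun a => cf (((Q.map (AdjoinRoot.of P)).roots.toList).get (Fin.cast hlen.symm a)), ?_⟩
  simp only [hcf]
  conv_lhs => rw [hprod, ← Multiset.coe_toList (Q.map (AdjoinRoot.of P)).roots]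
  rw [Multiset.map_coe, Multiset.prod_coe]
  rw [← (finCongr hlen).prod_comp]
  simp only [finCongr_apply, Fin.cast_cast, Fin.cast_eq_self]
  conv_lhs => rw [← List.ofFn_get (Q.map (AdjoinRoot.of P)).roots.toList, List.map_ofFn,
    List.prod_ofFn]
  rfl

/-- **One extension of each degree**: the roots of two irreducibles of one degree generate the
same field. -/
theorem mem_adjoin_of_roots {L : Type} [Field L] [Algebra (UltraField U F) L]
    {P Q : (UltraField U F)[X]} {n : ℕ} (hP : P.Monic) (hPi : Irreducible P)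
    (hPd : P.natDegree = n) (hQ : Q.Monic) (hQi : Irreducible Q) (hQd : Q.natDegree = n)
    {α β : L} (hα : Polynomial.aeval α P = 0) (hβ : Polynomial.aeval β Q = 0) :
    β ∈ IntermediateField.adjoin (UltraField U F) ({α} : Set L) := by
  classical
  obtain ⟨P', rfl, hP'd, hP'm⟩ := exists_monic_lift hP
  obtain ⟨Q', rfl, hQ'd, hQ'm⟩ := exists_monic_lift hQ
  have hev : ∀ᶠ i in (U : Filter I), ∃ c : Fin n → Fin n → F i,
      (Q'.map (Pi.evalRingHom F i)).map (AdjoinRoot.of (P'.map (Pi.evalRingHom F i))) =
        ∏ a : Fin n, (X - C (AdjoinRoot.mk (P'.map (Pi.evalRingHom F i))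
          (∑ b : Fin n, C (c a b) * X ^ (b : ℕ)))) := by
    filter_upwards [eventually_irreducible hP'm hPi, eventually_irreducible hQ'm hQi] with i hiP hiQ
    have hnt : Nontrivial (Π i, F i) := ⟨0, 1, fun e => zero_ne_one (congrFun e i)⟩
    exact exists_split_coords (F i) (hP'm.map _) hiP
      (by rw [hP'm.natDegree_map, hP'd, hPd]) (hQ'm.map _) hiQ
      (by rw [hQ'm.natDegree_map, hQ'd, hQd])
  choose! c hc using fun i (hi : ∃ c : Fin n → Fin n → F i,
      (Q'.map (Pi.evalRingHom F i)).map (AdjoinRoot.of (P'.map (Pi.evalRingHom F i))) =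
        ∏ a : Fin n, (X - C (AdjoinRoot.mk (P'.map (Pi.evalRingHom F i))
          (∑ b : Fin n, C (c a b) * X ^ (b : ℕ))))) => hi
  obtain ⟨r, hr⟩ : ∃ r : Fin n → (Π i, F i)[X],
      ∀ a, r a = ∑ b : Fin n, C (fun i => c i a b) * X ^ (b : ℕ) := ⟨_, fun _ => rfl⟩
  obtain ⟨D, hD⟩ : ∃ D : (Π i, F i)[X][X],
      D = Q'.map C - ∏ a : Fin n, (X - C (r a)) := ⟨_, rfl⟩
  obtain ⟨E, hE⟩ : ∃ E : (Π i, F i)[X] →+* L,
      E = eval₂RingHom ((algebraMap (UltraField U F) L).comp (umk U F)) α := ⟨_, rfl⟩
  have hEP : ∀ u : (Π i, F i)[X], E u = Polynomial.aeval α (u.map (umk U F)) := fun u => by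
    rw [hE, coe_eval₂RingHom, aeval_def, eval₂_map]
  have hDz : D.map E = 0 := by
    ext m
    rw [coeff_map, coeff_zero]
    have hmod : ((D.coeff m) %ₘ P').map (umk U F) = 0 := by
      rw [poly_map_umk_eq_zero_iff]
      filter_upwards [hev] with i hi
      rw [map_modByMonic _ hP'm, modByMonic_eq_zero_iff_dvd (hP'm.map _), ← AdjoinRoot.mk_eq_zero]
      have h0 : D.map ((AdjoinRoot.mk (P'.map (Pi.evalRingHom F i))).comp
          (mapRingHom (Pi.evalRingHom F i))) = 0 := by
        rw [hD, Polynomial.map_sub, Polynomial.map_prod, Polynomial.map_map, sub_eq_zero]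
        simp only [Polynomial.map_sub, Polynomial.map_X, Polynomial.map_C, RingHom.comp_apply,
          coe_mapRingHom, hr, Polynomial.map_sum, Polynomial.map_mul, Polynomial.map_pow,
          Pi.evalRingHom_apply]
        rw [← hc i hi, Polynomial.map_map]
        refine congrArg (fun φ => Q'.map φ) (RingHom.ext fun y => ?_)
        simp [AdjoinRoot.mk_C]
      have := congrArg (fun u => u.coeff m) h0
      simpa [coeff_map] using this
    conv_lhs => rw [← modByMonic_add_div (D.coeff m) P']
    rw [map_add, map_mul, hEP, hEP P', hmod, hα, map_zero, zero_mul, add_zero]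
  have hev' := congrArg (fun u => u.eval β) hDz
  simp only [hD, Polynomial.map_sub, Polynomial.map_prod, Polynomial.map_X, Polynomial.map_C,
    Polynomial.map_map, eval_sub, eval_prod, eval_X, eval_C, eval_zero] at hev'
  have hQ0 : (Q'.map (E.comp C)).eval β = 0 := by
    rw [eval_map, ← hβ, aeval_def, eval₂_map]
    congr 1
    exact RingHom.ext fun y => by simp [hE]
  rw [hQ0, zero_sub, neg_eq_zero, Finset.prod_eq_zero_iff] at hev'
  obtain ⟨a, -, ha⟩ := hev'
  rw [sub_eq_zero.1 ha, hEP]
  exact IntermediateField.algebra_adjoin_le_adjoin _ _ (aeval_mem_adjoin_singleton _ α)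

theorem perfectField_ultra : PerfectField (UltraField U F) := by
  obtain ⟨p, hp⟩ := CharP.exists (UltraField U F)
  haveI := hp
  rcases CharP.char_is_prime_or_zero (UltraField U F) p with hprime | rfl
  · haveI : ExpChar (UltraField U F) p := ExpChar.prime hprime
    haveI : PerfectRing (UltraField U F) p :=
      PerfectRing.ofSurjective (UltraField U F) p fun x => by
      obtain ⟨y, rfl⟩ := umk_surjective x
      have hev : ∀ᶠ i in (U : Filter I), (p : F i) = 0 := by
        have h := CharP.cast_eq_zero (UltraField U F) p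
        rw [← map_natCast (umk U F), umk_eq_zero] at h
        exact h.mono fun i hi => by simpa using hi
      choose! z hz using fun i (hi : (p : F i) = 0) => show ∃ z : F i, z ^ p = y i from by
        haveI : Fact p.Prime := ⟨hprime⟩
        haveI : CharP (F i) p := (CharP.charP_iff_prime_eq_zero hprime).2 hi
        haveI : ExpChar (F i) p := ExpChar.prime hprime
        exact ⟨(frobeniusEquiv (F i) p).symm (y i), frobenius_apply_frobeniusEquiv_symm _ p _⟩
      refine ⟨umk U F z, ?_⟩
      rw [frobenius_def, ← map_pow, umk_eq_umk]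
      exact hev.mono fun i hi => hz i hi
    exact PerfectRing.toPerfectField (UltraField U F) p
  · haveI : CharZero (UltraField U F) := CharP.charP_to_charZero _
    exact PerfectField.ofCharZero

/-- **Exactly one extension of each degree.** -/
theorem existsUnique_intermediateField {n : ℕ} (hn : 0 < n) :
    ∃! E : IntermediateField (UltraField U F) (AlgebraicClosure (UltraField U F)),
      Module.finrank (UltraField U F) E = n := by
  obtain ⟨P, hP, hPd, hPi⟩ := exists_irreducible_ultra (U := U) (F := F) hn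
  obtain ⟨α, hα⟩ := IsAlgClosed.exists_aeval_eq_zero (AlgebraicClosure (UltraField U F)) P
    (by rw [degree_eq_natDegree hP.ne_zero, hPd]; exact_mod_cast hn.ne')
  have hint : IsIntegral (UltraField U F) α := ⟨P, hP, hα⟩
  have hfin : Module.finrank (UltraField U F)
      (IntermediateField.adjoin (UltraField U F) ({α} : Set _)) = n := by
    rw [IntermediateField.adjoin.finrank hint, ← minpoly.eq_of_irreducible_of_monic hPi hα hP, hPd]
  refine ⟨_, hfin, fun E hE => ?_⟩
  haveI := perfectField_ultra (U := U) (F := F)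
  haveI : FiniteDimensional (UltraField U F) E := Module.finite_of_finrank_pos (by omega)
  obtain ⟨β, hβ⟩ := Field.exists_primitive_element (UltraField U F) E
  have hEβ : IntermediateField.adjoin (UltraField U F) ({(β : AlgebraicClosure _)} : Set _) =
      E := by
    rw [show ({(β : AlgebraicClosure (UltraField U F))} : Set _) = E.val '' {β} by simp,
      ← IntermediateField.adjoin_map, hβ, ← AlgHom.fieldRange_eq_map,
      IntermediateField.fieldRange_val]
  have hintβ : IsIntegral (UltraField U F) (β : AlgebraicClosure (UltraField U F)) :=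
    Algebra.IsIntegral.isIntegral _
  have hdeg : (minpoly (UltraField U F) (β : AlgebraicClosure (UltraField U F))).natDegree = n := by
    rw [← IntermediateField.adjoin.finrank hintβ, hEβ, hE]
  have hmem := mem_adjoin_of_roots hP hPi hPd (minpoly.monic hintβ) (minpoly.irreducible hintβ)
    hdeg hα (minpoly.aeval _ _)
  haveI := IntermediateField.adjoin.finiteDimensional hint
  refine IntermediateField.eq_of_le_of_finrank_eq ?_ (hE.trans hfin.symm)
  rw [← hEβ, IntermediateField.adjoin_le_iff, Set.singleton_subset_iff]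
  exact hmem

/-- **Pseudo algebraically closed.** -/
theorem exists_point_ultra (hbig : ∀ B : ℕ, ∀ᶠ i in (U : Filter I), B ≤ Nat.card (F i))
    {f : MvPolynomial (Fin 2) (UltraField U F)}
    (hirr : Irreducible (f.map (algebraMap _ (AlgebraicClosure (UltraField U F)))))
    {s : Fin 2 →₀ ℕ} (hs : s 1 ≠ 0) (hc : f.coeff s ≠ 0) (S : Finset (UltraField U F)) :
    ∃ x : Fin 2 → UltraField U F, MvPolynomial.eval x f = 0 ∧ x 0 ∉ S := by
  classical
  obtain ⟨f', rfl⟩ := MvPolynomial.map_surjective (umk U F) umk_surjective f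
  let Ω : I → Type := fun i => AlgebraicClosure (F i)
  obtain ⟨ιP, hιP⟩ : ∃ ιP : (Π i, F i) →+* (Π i, Ω i), ∀ y i,
      ιP y i = algebraMap (F i) (AlgebraicClosure (F i)) (y i) :=
    ⟨RingHom.pi fun i => (algebraMap (F i) (Ω i)).comp (Pi.evalRingHom F i), fun _ _ => rfl⟩
  obtain ⟨φ, hφ⟩ : ∃ φ : UltraField U F →+* UltraField U Ω,
      φ.comp (umk U F) = (umk U Ω).comp ιP := by
    refine ⟨Ideal.Quotient.lift (ultraKer U F) ((umk U Ω).comp ιP) fun y hy => ?_,
      Ideal.Quotient.lift_comp_mk _ _ _⟩
    rw [RingHom.comp_apply, umk_eq_zero]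
    exact (show ∀ᶠ i in (U : Filter I), y i = 0 from hy).mono fun i hi => by
      rw [hιP, hi]
      exact map_zero _
  have hG : Irreducible ((f'.map ιP).map (umk U Ω)) := by
    refine irreducible_of_irreducible_map (algebraMap _ (AlgebraicClosure (UltraField U Ω))) ?_
    have h := (irreducible_map_iff ((algebraMap _ (AlgebraicClosure (UltraField U Ω))).comp φ) _).1
      hirr
    rw [MvPolynomial.map_map, RingHom.comp_assoc, hφ] at h
    rwa [MvPolynomial.map_map, MvPolynomial.map_map]
  have hev1 : ∀ᶠ i in (U : Filter I),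
      Irreducible ((member i f').map (algebraMap (F i) (AlgebraicClosure (F i)))) :=
    (eventually_irreducible_member hG).mono fun i hi => by
      rw [member, MvPolynomial.map_map] at hi ⊢
      convert hi using 2
      exact congrArg _ (RingHom.ext fun y => (hιP y i).symm)
  rw [MvPolynomial.coeff_map, umk_ne_zero] at hc
  obtain ⟨q₀, hq₀⟩ := exists_point_off f'.totalDegree S.card
  choose sec hsec using umk_surjective (U := U) (F := F)
  have hpt : ∀ᶠ i in (U : Filter I), ∃ x : Fin 2 → F i, MvPolynomial.eval x (member i f') = 0 ∧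
      x 0 ∉ S.image fun t => sec t i := by
    filter_upwards [hev1, hc, hbig q₀] with i hi hci hq
    exact hq₀ (F i) (member i f') (totalDegree_member_le i f') hi
      (natDegree_toBi_ne_zero hs (by rw [MvPolynomial.coeff_map]; exact hci)) _
      Finset.card_image_le hq
  choose! x hx hxS using fun i (hi : ∃ x : Fin 2 → F i, MvPolynomial.eval x (member i f') = 0 ∧
    x 0 ∉ S.image fun t => sec t i) => hi
  refine ⟨fun j => umk U F fun i => x i j, ?_, fun hmem => ?_⟩
  · rw [eval_map_comp, umk_eq_zero]
    filter_upwards [hpt] with i hi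
    have e := eval_map_comp (Pi.evalRingHom F i) (fun j i => x i j) f'
    simp only [Pi.evalRingHom_apply] at e
    rw [← e]
    exact hx i hi
  · obtain ⟨i, hi, he⟩ := (hpt.and (umk_eq_umk.1 (hsec (umk U F fun i => x i 0)))).exists
    exact hxS i hi (Finset.mem_image.2 ⟨_, hmem, he⟩)

end FA.AxFiniteFields

end
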