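import Fermat.Agent.AxFiniteFields.Points
import Mathlib.NumberTheory.Padics.Hensel
import Mathlib.NumberTheory.Padics.RingHoms

/-!
# The theorem of Ostrowski and Noether, and local points

An absolutely irreducible `f ∈ ℤ[x, y]` stays absolutely irreducible modulo all large primes; so
it has nonsingular points modulo every large `p`, which lift to `ℤ_p`.
-/

set_option autoImplicit false
set_option linter.style.haveILetI false

noncomputable section

namespace FA.AxFiniteFields

open MvPolynomial Fermat.Agent.AxKochen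

theorem eventually_natCast_ne_zero (n : ℕ) (hn : n ≠ 0) :
    ∀ᶠ p : Nat.Primes in Filter.cofinite, (p : ℕ).Coprime n := by
  refine Set.Finite.subset (((Set.finite_le_nat n).preimage
    Subtype.val_injective.injOn)) fun p (hp : ¬(p : ℕ).Coprime n) => ?_
  exact Nat.le_of_dvd (Nat.pos_of_ne_zero hn)
    (not_not.1 fun h => hp (p.2.coprime_iff_not_dvd.2 h))

/-- **Ostrowski–Noether**: absolute irreducibility survives reduction modulo large primes. -/
theorem exists_irreducible_mod (f : MvPolynomial (Fin 2) ℤ)
    (h : Irreducible (f.map (algebraMap ℤ (AlgebraicClosure ℚ)))) :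
    ∃ p₀ : ℕ, ∀ p : ℕ, ∀ [Fact p.Prime], p₀ ≤ p →
      Irreducible (f.map (Int.castRingHom (AlgebraicClosure (ZMod p)))) := by
  classical
  haveI hfact : ∀ p : Nat.Primes, Fact (p : ℕ).Prime := fun p => ⟨p.2⟩
  obtain ⟨bad, hbad⟩ : ∃ bad : Set Nat.Primes, ∀ p : Nat.Primes,
      p ∈ bad ↔ ¬Irreducible (f.map (Int.castRingHom (AlgebraicClosure (ZMod (p : ℕ))))) :=
    ⟨{p : Nat.Primes | ¬Irreducible (f.map (Int.castRingHom (AlgebraicClosure (ZMod (p : ℕ)))))},
      fun _ => Iff.rfl⟩
  suffices hfin : bad.Finite by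
    refine ⟨(hfin.toFinset.image fun p : Nat.Primes => (p : ℕ)).sup id + 1, fun p hp hle => ?_⟩
    by_contra hirr
    have hmem : (⟨p, hp.out⟩ : Nat.Primes) ∈ bad := (hbad ⟨p, hp.out⟩).2 hirr
    have := Finset.le_sup (f := id) (Finset.mem_image.2
      ⟨_, hfin.mem_toFinset.2 hmem, rfl⟩ : p ∈ hfin.toFinset.image fun p : Nat.Primes => (p : ℕ))
    simp only [id_eq] at this
    omega
  by_contra hinf
  haveI := Set.Infinite.cofinite_inf_principal_neBot hinf
  obtain ⟨U, hU⟩ : ∃ U : Ultrafilter Nat.Primes,
      (U : Filter Nat.Primes) ≤ Filter.cofinite ⊓ Filter.principal bad :=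
    ⟨Ultrafilter.of _, Ultrafilter.of_le _⟩
  obtain ⟨hUc, hUb⟩ := le_inf_iff.1 hU
  haveI : CharZero (UltraField U fun p : Nat.Primes => AlgebraicClosure (ZMod (p : ℕ))) := by
    refine ultraField_charZero fun n hn => ((eventually_natCast_ne_zero n hn).filter_mono hUc).mono
      fun p hp e => ?_
    rw [← map_natCast (algebraMap (ZMod (p : ℕ)) (AlgebraicClosure (ZMod (p : ℕ)))), map_eq_zero,
      ZMod.natCast_eq_zero_iff] at e
    exact (p.2.coprime_iff_not_dvd.1 hp) e
  obtain ⟨F, hF⟩ : ∃ F : MvPolynomial (Fin 2) (Π p : Nat.Primes, AlgebraicClosure (ZMod (p : ℕ))),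
      F = f.map (Int.castRingHom _) := ⟨_, rfl⟩
  have hmem : ∀ p, member p F = f.map (Int.castRingHom _) := fun p => by
    rw [hF, member, map_map]
    exact congrArg (fun φ => map φ f) (RingHom.ext_int _ _)
  have hirr : Irreducible (F.map (umk U _)) := by
    haveI : IsAlgClosure ℚ (AlgebraicClosure ℚ) := ⟨inferInstance, by
      exact AlgebraicClosure.isAlgebraic ℚ⟩
    let Ω := UltraField U fun p : Nat.Primes => AlgebraicClosure (ZMod (p : ℕ))
    refine irreducible_of_irreducible_map (algebraMap Ω (AlgebraicClosure Ω)) ?_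
    have h1 := (irreducible_map_iff (M := AlgebraicClosure ℚ)
      ((algebraMap Ω (AlgebraicClosure Ω)).comp (Rat.castHom Ω)) (f.map (Int.castRingHom ℚ))).1 (by
        rw [map_map]
        convert h using 2
        exact congrArg _ (RingHom.ext_int _ _))
    rw [map_map] at h1
    rw [hF, map_map, map_map]
    convert h1 using 2
    exact congrArg _ (RingHom.ext_int _ _)
  obtain ⟨p, hp, hp'⟩ := ((eventually_irreducible_member hirr).and
    (hUb (Filter.mem_principal_self bad))).exists
  rw [hmem] at hp
  exact (hbad p).1 hp' hp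

/-- Reduction of the coefficients keeps absolute irreducibility in the form used for the counts. -/
theorem irreducible_zmod {f : MvPolynomial (Fin 2) ℤ} {p : ℕ} [Fact p.Prime]
    (h : Irreducible (f.map (Int.castRingHom (AlgebraicClosure (ZMod p))))) :
    Irreducible ((f.map (Int.castRingHom (ZMod p))).map
      (algebraMap (ZMod p) (AlgebraicClosure (ZMod p)))) := by
  rw [map_map]
  convert h using 2
  exact congrArg _ (RingHom.ext_int _ _)

theorem totalDegree_mod_le (f : MvPolynomial (Fin 2) ℤ) (p : ℕ) :
    (f.map (Int.castRingHom (ZMod p))).totalDegree ≤ f.totalDegree :=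
  Finset.sup_le fun _ hs => MvPolynomial.le_totalDegree (support_map_subset _ f hs)

/-- The derivative along one coordinate. -/
theorem derivative_aeval_update {R : Type*} [CommRing R] (a : Fin 2 → R) (i : Fin 2)
    (f : MvPolynomial (Fin 2) R) :
    Polynomial.derivative (MvPolynomial.aeval
        (fun j => if j = i then Polynomial.X else Polynomial.C (a j)) f) =
      MvPolynomial.aeval (fun j => if j = i then Polynomial.X else Polynomial.C (a j))
        (pderiv i f) := by
  induction f using MvPolynomial.induction_on with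
  | C r => simp
  | add u v hu hv => simp only [map_add] at hu hv ⊢; rw [hu, hv]
  | mul_X u j hu =>
    simp only [map_mul, Polynomial.derivative_mul, pderiv_mul, map_add, aeval_X, hu]
    rcases eq_or_ne j i with rfl | hj
    · simp
    · simp [hj, pderiv_X_of_ne hj]

/-- A nonsingular point modulo `p` lifts to `ℤ_p`. -/
theorem exists_padic_point (f : MvPolynomial (Fin 2) ℤ) (p : ℕ) [Fact p.Prime]
    {x : Fin 2 → ZMod p} {i : Fin 2} (hx : eval x (f.map (Int.castRingHom (ZMod p))) = 0)
    (hi : eval x (pderiv i (f.map (Int.castRingHom (ZMod p)))) ≠ 0) :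
    ∃ z : Fin 2 → ℤ_[p], aeval z f = 0 := by
  have hsurj : Function.Surjective (PadicInt.toZMod : ℤ_[p] →+* ZMod p) :=
    ZMod.ringHom_surjective _
  choose a ha using fun j => hsurj (x j)
  obtain ⟨F, hF⟩ : ∃ F : Polynomial ℤ_[p], F = MvPolynomial.aeval
      (fun j => if j = i then Polynomial.X else Polynomial.C (a j))
        (f.map (Int.castRingHom ℤ_[p])) := ⟨_, rfl⟩
  have hev : ∀ (u : MvPolynomial (Fin 2) ℤ_[p]) (t : ℤ_[p]), (MvPolynomial.aeval
      (fun j => if j = i then Polynomial.X else Polynomial.C (a j)) u : Polynomial ℤ_[p]).eval t =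
        eval (Function.update a i t) u := fun u t => by
    induction u using MvPolynomial.induction_on with
    | C r => simp
    | add u v hu hv => simp only [map_add, Polynomial.eval_add, hu, hv]
    | mul_X u j hu =>
      simp only [map_mul, Polynomial.eval_mul, hu, aeval_X, eval_X]
      rcases eq_or_ne j i with rfl | hj
      · simp
      · simp [hj]
  have hred : ∀ u : MvPolynomial (Fin 2) ℤ_[p],
      PadicInt.toZMod (eval a u) = eval x (u.map PadicInt.toZMod) := fun u => by
    rw [eval_map, show eval a u = eval₂ (RingHom.id _) a u from rfl, eval₂_comp_left,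
      RingHom.comp_id]
    congr 1
    exact funext ha
  have hmod : (f.map (Int.castRingHom ℤ_[p])).map PadicInt.toZMod =
      f.map (Int.castRingHom (ZMod p)) := by
    rw [map_map]
    exact congrArg (fun φ => map φ f) (RingHom.ext_int _ _)
  have hker : ∀ z : ℤ_[p], PadicInt.toZMod z = 0 ↔ ‖z‖ < 1 := fun z => by
    rw [← RingHom.mem_ker, PadicInt.ker_toZMod, IsLocalRing.mem_maximalIdeal, PadicInt.mem_nonunits]
  have hself : Function.update a i (a i) = a := Function.update_eq_self _ _
  have h1 : ‖F.aeval (a i)‖ < 1 := by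
    rw [Polynomial.coe_aeval_eq_eval, hF, hev, hself, ← hker, hred, hmod, hx]
  have h2 : ‖F.derivative.aeval (a i)‖ = 1 := by
    refine le_antisymm (PadicInt.norm_le_one _) (not_lt.1 ?_)
    rw [Polynomial.coe_aeval_eq_eval, hF, derivative_aeval_update, hev, hself, ← hker, hred,
      ← pderiv_map, hmod]
    exact hi
  obtain ⟨t, ht, -⟩ := hensels_lemma (F := F) (a := a i) (by rw [h2, one_pow]; exact h1)
  refine ⟨Function.update a i t, ?_⟩
  rw [Polynomial.coe_aeval_eq_eval, hF, hev] at ht
  rw [← ht, eval_map, aeval_def]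
  exact congrArg (fun φ => eval₂ φ (Function.update a i t) f) (RingHom.ext_int _ _)

end FA.AxFiniteFields

end
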