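import Fermat.Agent.AxFiniteFields.Transfer
import Fermat.Agent.CurveRH.LangWeil
import Mathlib.Algebra.MvPolynomial.PDeriv

/-!
# Points of plane curves over large finite fields

An absolutely irreducible plane curve over a finite field that is large against its degree has
points with abscissa outside a given small set, and nonsingular points.
-/

set_option autoImplicit false
set_option linter.style.haveILetI false

noncomputable section

namespace FA.AxFiniteFields

open Polynomial Polynomial.Bivariate FA.CurveRH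

variable {k : Type*} [Field k]

theorem exists_coeff_of_natDegree_toBi {f : MvPolynomial (Fin 2) k}
    (h : (toBi f).natDegree ≠ 0) : ∃ s, s 1 ≠ 0 ∧ f.coeff s ≠ 0 := by
  by_contra hno
  push Not at hno
  refine h (Nat.le_zero.1 ?_)
  rw [f.as_sum, toBi_sum]
  refine natDegree_sum_le_of_forall_le _ _ fun s hs => ?_
  rw [toBi_monomial]
  refine (natDegree_C_mul_X_pow_le _ _).trans ?_
  by_contra hs'
  exact MvPolynomial.mem_support_iff.1 hs (hno s (by omega))

theorem coeff_coeff_toBi (f : MvPolynomial (Fin 2) k) (s : Fin 2 →₀ ℕ) :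
    ((toBi f).coeff (s 1)).coeff (s 0) = f.coeff s := by
  classical
  conv_lhs => rw [f.as_sum, toBi_sum]
  rw [finsetSum_coeff, finsetSum_coeff, Finset.sum_eq_single s]
  · rw [toBi_monomial, coeff_C_mul_X_pow, if_pos rfl, coeff_C_mul_X_pow, if_pos rfl]
  · intro t _ ht
    rw [toBi_monomial, coeff_C_mul_X_pow]
    split_ifs with h1
    · rw [coeff_C_mul_X_pow, if_neg]
      intro h0
      refine ht (Finsupp.ext fun i => ?_)
      fin_cases i
      · exact h0.symm
      · exact h1.symm
    · rw [coeff_zero]
  · intro hs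
    rw [MvPolynomial.notMem_support_iff.1 hs, toBi_monomial]
    simp

theorem natDegree_toBi_ne_zero {f : MvPolynomial (Fin 2) k} {s : Fin 2 →₀ ℕ} (hs : s 1 ≠ 0)
    (hc : f.coeff s ≠ 0) : (toBi f).natDegree ≠ 0 := fun h => hc (by
  rw [← coeff_coeff_toBi, coeff_eq_zero_of_natDegree_lt (p := toBi f) (n := s 1) (by omega),
    coeff_zero])

theorem derivative_toBi (f : MvPolynomial (Fin 2) k) :
    derivative (toBi f) = toBi (MvPolynomial.pderiv 1 f) := by
  induction f using MvPolynomial.induction_on with
  | C r => simp [toBi]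
  | add u v hu hv => simp only [toBi, map_add] at hu hv ⊢; rw [hu, hv]
  | mul_X u i hu =>
    simp only [toBi, map_mul, derivative_mul, MvPolynomial.pderiv_mul, map_add] at hu ⊢
    rw [hu]
    fin_cases i <;> simp

/-- Few points lie over a finite set of abscissas. -/
theorem natCard_over_le [Finite k] {f : MvPolynomial (Fin 2) k} (hirr : Irreducible f)
    (hn : (toBi f).natDegree ≠ 0) (S : Finset k) :
    Nat.card {x : Fin 2 → k // MvPolynomial.eval x f = 0 ∧ x 0 ∈ S} ≤ S.card * f.totalDegree := by
  classical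
  have := Fintype.ofFinite k
  have hbi : Irreducible (toBi f) :=
    (MulEquiv.irreducible_iff (equivMvPolynomial k).symm).2 hirr
  rw [Nat.card_eq_fintype_card, Fintype.card_subtype, mul_comm]
  refine Finset.card_le_mul_card_image_of_maps_to (f := fun x : Fin 2 → k => x 0)
    (fun x hx => (Finset.mem_filter.1 hx).2.2) f.totalDegree fun a _ => ?_
  refine le_trans (Finset.card_le_card_of_injOn (fun x : Fin 2 → k => x 1)
    (t := ((toBi f).map (evalRingHom a)).roots.toFinset) (fun x hx => ?_) fun x hx y hy e => ?_) ?_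
  · rw [Finset.mem_coe, Finset.mem_filter, Finset.mem_filter] at hx
    rw [Finset.mem_coe, Multiset.mem_toFinset, mem_roots (map_evalRingHom_ne_zero hbi hn a), IsRoot,
      eval_toBi, show ![a, x 1] = x by funext i; fin_cases i <;> simp [hx.2]]
    exact hx.1.2.1
  · rw [Finset.mem_coe, Finset.mem_filter] at hx hy
    funext i
    fin_cases i
    · exact hx.2.trans hy.2.symm
    · exact e
  · exact ((Multiset.toFinset_card_le _).trans (card_roots' _)).trans
      (natDegree_map_le.trans (natDegree_toBi_le f))

/-- **Points with abscissa outside a given set.** -/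
theorem exists_point_off (d m : ℕ) : ∃ q₀ : ℕ, ∀ (k : Type) [Field k] [Finite k]
    (f : MvPolynomial (Fin 2) k), f.totalDegree ≤ d →
      Irreducible (f.map (algebraMap k (AlgebraicClosure k))) → (toBi f).natDegree ≠ 0 →
        ∀ S : Finset k, S.card ≤ m → q₀ ≤ Nat.card k →
          ∃ x : Fin 2 → k, MvPolynomial.eval x f = 0 ∧ x 0 ∉ S := by
  obtain ⟨q₀, hq₀⟩ := exists_le_natCard_points d (m * d + 1)
  refine ⟨q₀, fun k _ _ f hd hirr hn S hS hq => ?_⟩
  by_contra hno
  push Not at hno
  have h1 := hq₀ k f hd hirr hq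
  have h2 := natCard_over_le (irreducible_of_irreducible_map _ hirr) hn S
  rw [Nat.card_congr (Equiv.subtypeEquivRight fun x =>
    (⟨fun h => h.1, fun h => ⟨h, hno x h⟩⟩ :
      MvPolynomial.eval x f = 0 ∧ x 0 ∈ S ↔ MvPolynomial.eval x f = 0))] at h2
  have := Nat.mul_le_mul hS hd
  omega

theorem exists_good_abscissas {K : Type*} [Field K] [IsAlgClosed K] {f : MvPolynomial (Fin 2) K}
    (hirr : Irreducible f) (hder : derivative (toBi f) ≠ 0) :
    ∃ bad : Finset K, bad.card ≤ f.totalDegree * (2 * f.totalDegree + 1) ∧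
      ∀ a ∉ bad, ∀ b, MvPolynomial.eval ![a, b] f = 0 →
        MvPolynomial.eval ![a, b] (MvPolynomial.pderiv 1 f) ≠ 0 := by
  have hbi : Irreducible (toBi f) :=
    (MulEquiv.irreducible_iff (equivMvPolynomial K).symm).2 hirr
  have hn : (toBi f).natDegree ≠ 0 := fun h => hder (derivative_of_natDegree_zero h)
  haveI : Fact (Irreducible (fRat (toBi f))) :=
    ⟨((hbi.isPrimitive hn).irreducible_iff_irreducible_map_fraction_map (K := RatFunc K)).1 hbi⟩
  have hm : IsPlaneModel f (AdjoinRoot.root (fRat (toBi f))) :=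
    ⟨hirr, hder, by rw [aeval_def, AdjoinRoot.algebraMap_eq, AdjoinRoot.eval₂_root],
      AdjoinRoot.adjoinRoot_eq_top⟩
  obtain ⟨bad, hbad, hgood⟩ := hm.exists_bad_card
  refine ⟨bad, hbad, fun a ha b hb => ?_⟩
  rw [← eval_toBi, ← derivative_toBi, ← derivative_map]
  have h := (hgood a ha).2.aeval_derivative_ne_zero (x := b)
    (by simpa [eval_toBi] using hb)
  simpa using h

/-- **Nonsingular points.** -/
theorem exists_nonsingular_point (d : ℕ) : ∃ q₀ : ℕ, ∀ (k : Type) [Field k] [Finite k]
    (f : MvPolynomial (Fin 2) k), f.totalDegree ≤ d →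
      Irreducible (f.map (algebraMap k (AlgebraicClosure k))) → q₀ ≤ Nat.card k →
        ∃ (x : Fin 2 → k) (i : Fin 2),
          MvPolynomial.eval x f = 0 ∧ MvPolynomial.eval x (MvPolynomial.pderiv i f) ≠ 0 := by
  obtain ⟨q₀, hq₀⟩ := exists_point_off d (d * (2 * d + 1))
  refine ⟨q₀, fun k _ _ f hd hirr hq => ?_⟩
  classical
  obtain ⟨p, hp⟩ := CharP.exists k
  haveI := hp
  haveI : Fact p.Prime := ⟨CharP.char_is_prime k p⟩
  haveI : CharP (AlgebraicClosure k) p :=
    charP_of_injective_algebraMap (algebraMap k (AlgebraicClosure k)).injective p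
  have key : ∀ g : MvPolynomial (Fin 2) k, g.totalDegree ≤ d →
      Irreducible (g.map (algebraMap k (AlgebraicClosure k))) →
      derivative (toBi (g.map (algebraMap k (AlgebraicClosure k)))) ≠ 0 →
      ∃ x : Fin 2 → k,
        MvPolynomial.eval x g = 0 ∧ MvPolynomial.eval x (MvPolynomial.pderiv 1 g) ≠ 0 := by
    intro g hgd hgirr hder
    obtain ⟨bad, hbad, hgood⟩ := exists_good_abscissas hgirr hder
    have hdeg : (g.map (algebraMap k (AlgebraicClosure k))).totalDegree ≤ d := by
      rw [MvPolynomial.totalDegree, MvPolynomial.support_map_of_injective g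
        (algebraMap k (AlgebraicClosure k)).injective]
      exact hgd
    have hn : (toBi g).natDegree ≠ 0 := by
      obtain ⟨s, hs, hc⟩ := exists_coeff_of_natDegree_toBi
        (fun h => hder (derivative_of_natDegree_zero h))
      rw [MvPolynomial.coeff_map] at hc
      exact natDegree_toBi_ne_zero hs fun e => hc (by rw [e, map_zero])
    have := Fintype.ofFinite k
    obtain ⟨x, hx, hxS⟩ := hq₀ k g hgd hgirr hn
      (Finset.univ.filter fun a => algebraMap k (AlgebraicClosure k) a ∈ bad)
      (le_trans (Finset.card_le_card_of_injOn (algebraMap k (AlgebraicClosure k))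
        (fun a ha => (Finset.mem_filter.1 ha).2)
        fun a _ b _ e => (algebraMap k (AlgebraicClosure k)).injective e)
        (hbad.trans (Nat.mul_le_mul hdeg (Nat.add_le_add_right (Nat.mul_le_mul_left 2 hdeg) 1)))) hq
    refine ⟨x, hx, fun e => ?_⟩
    have hv : ∀ u : MvPolynomial (Fin 2) k, MvPolynomial.eval
        ![algebraMap k (AlgebraicClosure k) (x 0), algebraMap k (AlgebraicClosure k) (x 1)]
          (u.map (algebraMap k (AlgebraicClosure k))) =
        algebraMap k (AlgebraicClosure k) (MvPolynomial.eval x u) := fun u => by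
      rw [MvPolynomial.eval_map, show MvPolynomial.eval x u =
        MvPolynomial.eval₂ (RingHom.id k) x u from rfl, MvPolynomial.eval₂_comp_left]
      simp only [RingHom.comp_id]
      congr 1
      funext i
      fin_cases i <;> simp
    refine hgood _ (fun h => hxS (Finset.mem_filter.2 ⟨Finset.mem_univ _, h⟩)) _
      (by rw [hv, hx, map_zero]) ?_
    rw [MvPolynomial.pderiv_map, hv, e, map_zero]
  rcases derivative_or_swap_ne_zero p
    (g := toBi (f.map (algebraMap k (AlgebraicClosure k))))
    ((MulEquiv.irreducible_iff (equivMvPolynomial (AlgebraicClosure k)).symm).2 hirr) with h | h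
  · obtain ⟨x, h1, h2⟩ := key f hd hirr h
    exact ⟨x, 1, h1, h2⟩
  · rw [swap_toBi, ← MvPolynomial.map_rename] at h
    obtain ⟨x, h1, h2⟩ := key (MvPolynomial.rename (Equiv.swap 0 1) f)
      ((MvPolynomial.totalDegree_rename_le _ f).trans hd)
      (by
        rw [MvPolynomial.map_rename, ← MvPolynomial.renameEquiv_apply]
        exact (MulEquiv.irreducible_iff (MvPolynomial.renameEquiv _ _)).2 hirr) h
    refine ⟨x ∘ Equiv.swap (0 : Fin 2) 1, 0, by rwa [MvPolynomial.eval_rename] at h1, ?_⟩
    have e := MvPolynomial.pderiv_rename (R := k) (Equiv.swap (0 : Fin 2) 1).injective 0 f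
    rw [Equiv.swap_apply_left] at e
    rwa [e, MvPolynomial.eval_rename] at h2

end FA.AxFiniteFields

end
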