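import Fermat.Agent.AxKochen.Ultra
import Mathlib.Algebra.MvPolynomial.Nilpotent
import Mathlib.Algebra.MvPolynomial.NoZeroDivisors
import Mathlib.Order.Filter.Ultrafilter.Basic
import Mathlib.FieldTheory.IsAlgClosed.Basic
import Mathlib.FieldTheory.IsAlgClosed.AlgebraicClosure
import Mathlib.RingTheory.Jacobson.Ring
import Mathlib.RingTheory.MvPolynomial.Basic

/-!
# Irreducibility under extensions of algebraically closed fields and under ultraproducts

A factorisation over an extension of an algebraically closed field descends to the field by the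
Nullstellensatz, and factorisations of bounded degree of almost all members of a family give one
over the ultraproduct.
-/

set_option autoImplicit false
set_option linter.style.haveILetI false

noncomputable section

namespace FA.AxFiniteFields

open MvPolynomial Fermat.Agent.AxKochen

section Descent

variable {σ : Type*}

theorem nonconstant_iff {k : Type*} [Field k] {g : MvPolynomial σ k} :
    (∃ s, s ≠ 0 ∧ g.coeff s ≠ 0) ↔ ¬IsUnit g ∧ g ≠ 0 := by
  constructor
  · rintro ⟨s, hs, hg⟩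
    refine ⟨fun hu => ?_, fun e => hg (by rw [e, coeff_zero])⟩
    obtain ⟨r, -, rfl⟩ := isUnit_iff_eq_C_of_isReduced.1 hu
    classical exact hg (by rw [coeff_C, if_neg (Ne.symm hs)])
  · rintro ⟨hu, h0⟩
    by_contra hno
    push Not at hno
    classical
    have hC : g = C (g.coeff 0) := MvPolynomial.ext _ _ fun s => by
      rcases eq_or_ne s 0 with rfl | hs
      · rw [coeff_C, if_pos rfl]
      · rw [coeff_C, if_neg (Ne.symm hs), hno s hs]
    refine hu (isUnit_iff_eq_C_of_isReduced.2 ⟨g.coeff 0, Ne.isUnit fun e => h0 ?_, hC⟩)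
    rw [hC, e, map_zero]

/-- Irreducibility descends along a homomorphism of fields. -/
theorem irreducible_of_irreducible_map {k L : Type*} [Field k] [Field L] (ι : k →+* L)
    {f : MvPolynomial σ k} (h : Irreducible (f.map ι)) : Irreducible f := by
  refine ⟨fun hu => h.not_isUnit (hu.map (map ι)), fun a b hab => ?_⟩
  by_contra hno
  push Not at hno
  have hab0 : a * b ≠ 0 := fun e => h.ne_zero (by rw [hab, e, map_zero])
  have key : ∀ c : MvPolynomial σ k, c ≠ 0 → ¬IsUnit c → ¬IsUnit (c.map ι) := fun c hc hu => by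
    obtain ⟨s, hs, hcs⟩ := nonconstant_iff.2 ⟨hu, hc⟩
    exact (nonconstant_iff.1 ⟨s, hs, by rw [coeff_map]; exact (map_ne_zero ι).2 hcs⟩).1
  rw [hab, map_mul] at h
  exact (h.isUnit_or_isUnit rfl).elim (key a (left_ne_zero_of_mul hab0) hno.1)
    (key b (right_ne_zero_of_mul hab0) hno.2)

/-- An irreducible polynomial over an algebraically closed field stays irreducible over every
extension. -/
theorem irreducible_map_of_isAlgClosed {k L : Type*} [Field k] [IsAlgClosed k] [Field L]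
    (ι : k →+* L) {f : MvPolynomial σ k} (hf : Irreducible f) : Irreducible (f.map ι) := by
  classical
  letI := ι.toAlgebra
  obtain ⟨s₀, hs₀, hfs₀⟩ := nonconstant_iff.2 ⟨hf.not_isUnit, hf.ne_zero⟩
  refine ⟨(nonconstant_iff.1 ⟨s₀, hs₀, by rw [coeff_map]; exact (map_ne_zero ι).2 hfs₀⟩).1,
    fun g h hgh => ?_⟩
  by_contra hno
  push Not at hno
  have hne : f.map ι ≠ 0 := fun e => hf.ne_zero (map_injective ι ι.injective (by rw [e, map_zero]))
  rw [hgh] at hne
  obtain ⟨s, hs, hgs⟩ := nonconstant_iff.2 ⟨hno.1, left_ne_zero_of_mul hne⟩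
  obtain ⟨t, ht, hht⟩ := nonconstant_iff.2 ⟨hno.2, right_ne_zero_of_mul hne⟩
  obtain ⟨T, hT⟩ : ∃ T : Finset L, T = g.coeffs ∪ h.coeffs ∪ {(g.coeff s)⁻¹, (h.coeff t)⁻¹} :=
    ⟨_, rfl⟩
  obtain ⟨A, hA⟩ : ∃ A : Subalgebra k L, A = Algebra.adjoin k (T : Set L) := ⟨_, rfl⟩
  haveI : Algebra.FiniteType k A :=
    hA ▸ (Subalgebra.fg_iff_finiteType _).1 (Subalgebra.fg_adjoin_finset T)
  have hmem : ∀ x ∈ T, x ∈ A := fun x hx => hA ▸ Algebra.subset_adjoin hx
  have hg : ∀ u, g.coeff u ∈ A := fun u => by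
    by_cases hu : g.coeff u = 0
    · rw [hu]; exact A.zero_mem
    · exact hmem _ (by rw [hT]; simp [coeff_mem_coeffs u hu])
  have hh : ∀ u, h.coeff u ∈ A := fun u => by
    by_cases hu : h.coeff u = 0
    · rw [hu]; exact A.zero_mem
    · exact hmem _ (by rw [hT]; simp [coeff_mem_coeffs u hu])
  obtain ⟨g', hg'⟩ : ∃ g' : MvPolynomial σ A, g'.map A.val.toRingHom = g :=
    ⟨∑ u ∈ g.support, monomial u ⟨g.coeff u, hg u⟩, by
      simp [map_sum, map_monomial, ← MvPolynomial.as_sum g]⟩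
  obtain ⟨h', hh'⟩ : ∃ h' : MvPolynomial σ A, h'.map A.val.toRingHom = h :=
    ⟨∑ u ∈ h.support, monomial u ⟨h.coeff u, hh u⟩, by
      simp [map_sum, map_monomial, ← MvPolynomial.as_sum h]⟩
  have hf' : f.map (algebraMap k A) = g' * h' := by
    apply map_injective A.val.toRingHom Subtype.val_injective
    rw [map_mul, hg', hh', map_map, ← hgh]
    rfl
  -- a point with values in `k`
  obtain ⟨ψ⟩ : Nonempty (A →ₐ[k] k) := by
    obtain ⟨m, hm⟩ := Ideal.exists_maximal A
    letI := Ideal.Quotient.field m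
    haveI : Algebra.FiniteType k (A ⧸ m) :=
      Algebra.FiniteType.of_surjective (Ideal.Quotient.mkₐ k m) Ideal.Quotient.mk_surjective
    haveI := finite_of_finite_type_of_isJacobsonRing k (A ⧸ m)
    haveI : Algebra.IsIntegral k (A ⧸ m) := Algebra.IsIntegral.of_finite k _
    exact ⟨(AlgEquiv.ofBijective (Algebra.ofId k (A ⧸ m))
      IsAlgClosed.algebraMap_bijective_of_isIntegral).symm.toAlgHom.comp
      (Ideal.Quotient.mkₐ k m)⟩
  have hψ : f = g'.map ψ.toRingHom * h'.map ψ.toRingHom := by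
    rw [← map_mul, ← hf', map_map]
    conv_lhs => rw [← map_id f]
    exact congrArg (fun φ => map φ f) (RingHom.ext fun a => (ψ.commutes a).symm)
  have key : ∀ (c : MvPolynomial σ L) (c' : MvPolynomial σ A) (u : σ →₀ ℕ), u ≠ 0 →
      c'.map A.val.toRingHom = c → c.coeff u ≠ 0 → (c.coeff u)⁻¹ ∈ A →
      ¬IsUnit (c'.map ψ.toRingHom) := fun c c' u hu hc hcu hinv => by
    subst hc
    refine (nonconstant_iff.1 ⟨u, hu, ?_⟩).1
    rw [coeff_map]
    refine (IsUnit.map ψ.toRingHom
      (IsUnit.of_mul_eq_one ⟨((c'.map A.val.toRingHom).coeff u)⁻¹, hinv⟩ ?_)).ne_zero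
    apply Subtype.val_injective
    show ((c'.coeff u : A) : L) * ((map A.val.toRingHom c').coeff u)⁻¹ = 1
    rw [coeff_map]
    exact mul_inv_cancel₀ (by rwa [coeff_map] at hcu)
  exact (hf.isUnit_or_isUnit hψ).elim
    (key g g' s hs hg' hgs (hmem _ (by rw [hT]; simp)))
    (key h h' t ht hh' hht (hmem _ (by rw [hT]; simp)))

/-- Absolute irreducibility may be tested in any algebraically closed extension. -/
theorem irreducible_map_iff {k M L : Type*} [Field k] [Field M] [Algebra k M]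
    [IsAlgClosure k M] [Field L] [IsAlgClosed L] (ι : k →+* L) (f : MvPolynomial σ k) :
    Irreducible (f.map (algebraMap k M)) ↔ Irreducible (f.map ι) := by
  letI := ι.toAlgebra
  haveI := IsAlgClosure.isAlgClosed k (K := M)
  haveI := IsAlgClosure.isAlgebraic (R := k) (K := M)
  let j : M →ₐ[k] L := IsAlgClosed.lift
  have e : f.map ι = (f.map (algebraMap k M)).map j.toRingHom := by
    rw [map_map]
    exact congrArg (fun φ => map φ f) (RingHom.ext fun a => (j.commutes a).symm)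
  rw [e]
  exact ⟨irreducible_map_of_isAlgClosed _, irreducible_of_irreducible_map _⟩

end Descent

section Ultra

variable {I : Type} {U : Ultrafilter I} {Ω : I → Type} [∀ i, Field (Ω i)] {σ : Type*}

/-- The member of a polynomial with coefficients in a product of fields. -/
abbrev member (i : I) (f : MvPolynomial σ (Π i, Ω i)) : MvPolynomial σ (Ω i) :=
  f.map (Pi.evalRingHom Ω i)

theorem totalDegree_member_le (i : I) (f : MvPolynomial σ (Π i, Ω i)) :
    (member i f).totalDegree ≤ f.totalDegree :=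
  Finset.sup_le fun _ hs => MvPolynomial.le_totalDegree (support_map_subset _ f hs)

theorem map_umk_eq_zero_iff {f : MvPolynomial σ (Π i, Ω i)} :
    f.map (umk U Ω) = 0 ↔ ∀ᶠ i in (U : Filter I), member i f = 0 := by
  simp only [MvPolynomial.ext_iff, coeff_map, coeff_zero, umk_eq_zero, member,
    Pi.evalRingHom_apply]
  refine ⟨fun h => ?_, fun h s => h.mono fun i hi => hi s⟩
  have := (Filter.eventually_all_finset f.support).2 fun s _ => h s
  filter_upwards [this] with i hi s
  by_cases hs : s ∈ f.support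
  · exact hi s hs
  · rw [notMem_support_iff.1 hs]; rfl

theorem map_umk_eq_iff {f g : MvPolynomial σ (Π i, Ω i)} :
    f.map (umk U Ω) = g.map (umk U Ω) ↔ ∀ᶠ i in (U : Filter I), member i f = member i g := by
  rw [← sub_eq_zero, ← map_sub, map_umk_eq_zero_iff]
  simp only [member, map_sub, sub_eq_zero]

/-- **Bounded factorisations pass to the ultraproduct.** -/
theorem eventually_irreducible_member [Finite σ] {f : MvPolynomial σ (Π i, Ω i)}
    (hirr : Irreducible (f.map (umk U Ω))) :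
    ∀ᶠ i in (U : Filter I), Irreducible (member i f) := by
  classical
  by_contra hev
  rw [← Ultrafilter.eventually_not] at hev
  obtain ⟨T, hT⟩ : ∃ T : Finset (σ →₀ ℕ), ∀ s, s ∈ T ↔ (s.sum fun _ e => e) ≤ f.totalDegree := by
    have hfin : {s : σ →₀ ℕ | (s.sum fun _ e => e) ≤ f.totalDegree}.Finite := by
      refine ((Set.Finite.pi' fun _ : σ => Set.finite_le_nat f.totalDegree).preimage
        DFunLike.coe_injective.injOn).subset fun s hs i => ?_
      refine le_trans ?_ (show (s.sum fun _ e => e) ≤ _ from hs)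
      by_cases h : s i = 0
      · rw [h]; exact Nat.zero_le _
      · exact Finset.single_le_sum (fun _ _ => Nat.zero_le _) (Finsupp.mem_support_iff.2 h)
    exact ⟨hfin.toFinset, fun s => hfin.mem_toFinset⟩
  obtain ⟨s₁, hs₁, hfs₁⟩ := nonconstant_iff.2 ⟨hirr.not_isUnit, hirr.ne_zero⟩
  rw [coeff_map, umk_ne_zero] at hfs₁
  -- a proper factorisation of almost every member
  have hfac : ∀ᶠ i in (U : Filter I), ∃ g h : MvPolynomial σ (Ω i), member i f = g * h ∧
      (∀ s, g.coeff s ≠ 0 → s ∈ T) ∧ (∀ s, h.coeff s ≠ 0 → s ∈ T) ∧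
      (∃ s ∈ T, s ≠ 0 ∧ g.coeff s ≠ 0) ∧ ∃ s ∈ T, s ≠ 0 ∧ h.coeff s ≠ 0 := by
    filter_upwards [hev, hfs₁] with i hi hs
    have hnc : ¬IsUnit (member i f) ∧ member i f ≠ 0 :=
      nonconstant_iff.1 ⟨s₁, hs₁, by rw [coeff_map]; exact hs⟩
    rw [irreducible_iff] at hi
    push Not at hi
    obtain ⟨g, h, hgh, hg, hh⟩ := hi hnc.1
    have hg0 : g ≠ 0 := fun e => hnc.2 (by rw [hgh, e, zero_mul])
    have hh0 : h ≠ 0 := fun e => hnc.2 (by rw [hgh, e, mul_zero])
    have hdeg := totalDegree_member_le i f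
    rw [hgh, totalDegree_mul_of_isDomain hg0 hh0] at hdeg
    have hgT : ∀ s, g.coeff s ≠ 0 → s ∈ T := fun s hs =>
      (hT s).2 ((le_totalDegree (mem_support_iff.2 hs)).trans (by omega))
    have hhT : ∀ s, h.coeff s ≠ 0 → s ∈ T := fun s hs =>
      (hT s).2 ((le_totalDegree (mem_support_iff.2 hs)).trans (by omega))
    obtain ⟨s, hs0, hgs⟩ := nonconstant_iff.2 ⟨hg, hg0⟩
    obtain ⟨t, ht0, hht⟩ := nonconstant_iff.2 ⟨hh, hh0⟩
    exact ⟨g, h, hgh, hgT, hhT, ⟨s, hgT s hgs, hs0, hgs⟩, ⟨t, hhT t hht, ht0, hht⟩⟩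
  choose! g h hgh hgT hhT hgs hhs using fun i (hi : ∃ g h : MvPolynomial σ (Ω i),
    member i f = g * h ∧ (∀ s, g.coeff s ≠ 0 → s ∈ T) ∧ (∀ s, h.coeff s ≠ 0 → s ∈ T) ∧
      (∃ s ∈ T, s ≠ 0 ∧ g.coeff s ≠ 0) ∧ ∃ s ∈ T, s ≠ 0 ∧ h.coeff s ≠ 0) => hi
  obtain ⟨glue, hglue⟩ : ∃ glue : (Π i, MvPolynomial σ (Ω i)) → MvPolynomial σ (Π i, Ω i),
      ∀ u, glue u = ∑ s ∈ T, monomial s fun i => (u i).coeff s := ⟨_, fun _ => rfl⟩
  have hmem : ∀ (u : Π i, MvPolynomial σ (Ω i)) i, (∀ s, (u i).coeff s ≠ 0 → s ∈ T) →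
      member i (glue u) = u i := fun u i hu => by
    ext s
    simp only [member, hglue, coeff_map, coeff_sum, coeff_monomial, Finset.sum_ite_eq']
    split_ifs with hs
    · rfl
    · rw [map_zero]; exact not_not.1 fun e => hs (hu s (Ne.symm e))
  have hmul : f.map (umk U Ω) = (glue g).map (umk U Ω) * (glue h).map (umk U Ω) := by
    rw [← map_mul, map_umk_eq_iff]
    filter_upwards [hfac] with i hi
    rw [member, member, map_mul]
    change _ = member i (glue g) * member i (glue h)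
    rw [hmem g i (hgT i hi), hmem h i (hhT i hi)]
    exact hgh i hi
  have hnon : ∀ u : Π i, MvPolynomial σ (Ω i), (∀ᶠ i in (U : Filter I),
      (∀ s, (u i).coeff s ≠ 0 → s ∈ T) ∧ ∃ s ∈ T, s ≠ 0 ∧ (u i).coeff s ≠ 0) →
      ¬IsUnit ((glue u).map (umk U Ω)) := by
    intro u hu
    obtain ⟨s, -, hs⟩ : ∃ s ∈ (T : Set (σ →₀ ℕ)), ∀ᶠ i in (U : Filter I),
        s ≠ 0 ∧ ((glue u).coeff s) i ≠ 0 :=
      (Ultrafilter.eventually_exists_mem_iff T.finite_toSet).1 (hu.mono fun i hi => by
        obtain ⟨s, hs, hs0, hus⟩ := hi.2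
        refine ⟨s, hs, hs0, ?_⟩
        rw [show ((glue u).coeff s) i = (member i (glue u)).coeff s by rw [member, coeff_map]; rfl,
          hmem u i hi.1]
        exact hus)
    obtain ⟨i, hi, -⟩ := hs.exists
    exact (nonconstant_iff.1 ⟨s, hi, by
      rw [coeff_map, umk_ne_zero]; exact hs.mono fun _ h => h.2⟩).1
  exact (hirr.isUnit_or_isUnit hmul).elim (hnon g (hfac.mono fun i hi => ⟨hgT i hi, hgs i hi⟩))
    (hnon h (hfac.mono fun i hi => ⟨hhT i hi, hhs i hi⟩))

end Ultra

end FA.AxFiniteFields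

end
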